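/-
Euler derivations on monoid algebras and on power series over them.
-/
import Mathlib.Algebra.MonoidAlgebra.Basic
import Mathlib.Algebra.MonoidAlgebra.MapDomain
import Mathlib.RingTheory.PowerSeries.Basic
import Mathlib.Tactic.Ring
import Mathlib.Tactic.LinearCombination

set_option autoImplicit false

noncomputable section

namespace Fermat.Agent.Tate

open AddMonoidAlgebra

variable {G H : Type*} [AddCommMonoid G] [AddCommMonoid H]

/-- The derivation of `ℤ[G]` multiplying the monomial of degree `g` by `χ g`. -/
def euler (χ : G →+ ℤ) : AddMonoidAlgebra ℤ G →+ AddMonoidAlgebra ℤ G :=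
  (Finsupp.liftAddHom fun g => (singleAddHom g).comp (AddMonoidHom.mulLeft (χ g))).comp
    coeffAddEquiv.toAddMonoidHom

@[simp]
theorem euler_single (χ : G →+ ℤ) (g : G) (c : ℤ) :
    euler χ (single g c) = single g (χ g * c) := by
  simp [euler]

theorem euler_mul (χ : G →+ ℤ) (f g : AddMonoidAlgebra ℤ G) :
    euler χ (f * g) = euler χ f * g + f * euler χ g := by
  induction f using AddMonoidAlgebra.induction_linear with
  | zero => simp
  | add x y hx hy => simp only [add_mul, map_add, hx, hy]; abel
  | single m r =>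
    induction g using AddMonoidAlgebra.induction_linear with
    | zero => simp
    | add x y hx hy => simp only [mul_add, map_add, hx, hy]; abel
    | single k s =>
      simp only [single_mul_single, euler_single, map_add, ← single_add]
      congr 1
      ring

theorem coeff_euler (χ : G →+ ℤ) (f : AddMonoidAlgebra ℤ G) (g : G) :
    (euler χ f).coeff g = χ g * f.coeff g := by
  induction f using AddMonoidAlgebra.induction_linear with
  | zero => simp
  | add x y hx hy => simp [hx, hy, mul_add]
  | single m r =>
    classical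
    simp only [euler_single, coeff_single, Finsupp.single_apply]
    split_ifs with h
    · rw [h]
    · simp

theorem euler_mapDomain (χ : H →+ ℤ) (φ : G →+ H) (f : AddMonoidAlgebra ℤ G) :
    euler χ (mapDomainRingHom ℤ φ f) = mapDomainRingHom ℤ φ (euler (χ.comp φ) f) := by
  induction f using AddMonoidAlgebra.induction_linear with
  | zero => simp
  | add x y hx hy => simp only [map_add, hx, hy]
  | single m r => simp

/-- `euler`, coefficientwise on power series. -/
def sEuler (χ : G →+ ℤ) :
    PowerSeries (AddMonoidAlgebra ℤ G) →+ PowerSeries (AddMonoidAlgebra ℤ G) where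
  toFun f := PowerSeries.mk fun n => euler χ (PowerSeries.coeff n f)
  map_zero' := by ext1; simp
  map_add' f g := by ext1; simp

@[simp]
theorem coeff_sEuler (χ : G →+ ℤ) (f : PowerSeries (AddMonoidAlgebra ℤ G)) (n : ℕ) :
    PowerSeries.coeff n (sEuler χ f) = euler χ (PowerSeries.coeff n f) := by
  simp [sEuler]

theorem sEuler_mul (χ : G →+ ℤ) (f g : PowerSeries (AddMonoidAlgebra ℤ G)) :
    sEuler χ (f * g) = sEuler χ f * g + f * sEuler χ g := by
  ext1 n
  simp only [coeff_sEuler, map_add, PowerSeries.coeff_mul, map_sum, euler_mul,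
    Finset.sum_add_distrib]

@[simp]
theorem sEuler_C (χ : G →+ ℤ) (c : AddMonoidAlgebra ℤ G) :
    sEuler χ (PowerSeries.C c) = PowerSeries.C (euler χ c) := by
  ext1 n
  simp only [coeff_sEuler, PowerSeries.coeff_C]
  split_ifs <;> simp

theorem sEuler_map (χ : H →+ ℤ) (φ : G →+ H) (f : PowerSeries (AddMonoidAlgebra ℤ G)) :
    sEuler χ (PowerSeries.map (mapDomainRingHom ℤ φ) f) =
      PowerSeries.map (mapDomainRingHom ℤ φ) (sEuler (χ.comp φ) f) := by
  ext1 n
  rw [coeff_sEuler, PowerSeries.coeff_map, PowerSeries.coeff_map, coeff_sEuler, euler_mapDomain]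

theorem sEuler_one (χ : G →+ ℤ) : sEuler χ 1 = 0 := by
  have h := sEuler_mul χ 1 1
  simp only [mul_one, one_mul] at h
  linear_combination -h

theorem sEuler_natCast (χ : G →+ ℤ) (n : ℕ) :
    sEuler χ (n : PowerSeries (AddMonoidAlgebra ℤ G)) = 0 := by
  induction n with
  | zero => simp
  | succ n ih => simp [ih, sEuler_one]

theorem sEuler_sq (χ : G →+ ℤ) (f : PowerSeries (AddMonoidAlgebra ℤ G)) :
    sEuler χ (f ^ 2) = 2 * f * sEuler χ f := by
  rw [pow_two, sEuler_mul]
  ring

theorem sEuler_pow (χ : G →+ ℤ) (f : PowerSeries (AddMonoidAlgebra ℤ G)) (n : ℕ) :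
    sEuler χ (f ^ (n + 1)) = (n + 1 : ℕ) * f ^ n * sEuler χ f := by
  induction n with
  | zero => simp
  | succ n ih =>
    rw [pow_succ f (n + 1), sEuler_mul, ih]
    push_cast
    ring

/-- A power series with integer coefficients is constant for `sEuler`. -/
theorem sEuler_map_intCast (χ : G →+ ℤ) (f : PowerSeries ℤ) :
    sEuler χ (PowerSeries.map (Int.castRingHom (AddMonoidAlgebra ℤ G)) f) = 0 := by
  ext1 n
  simp only [coeff_sEuler, PowerSeries.coeff_map, eq_intCast, map_zero]
  have h1 : (1 : AddMonoidAlgebra ℤ G) = single 0 1 := rfl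
  rw [← zsmul_one, map_zsmul, h1, euler_single]
  simp

end Fermat.Agent.Tate
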