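/-
Tate's series as power series in `q` over Laurent polynomials in `u`, cleared of the pole at
`u = 1`, and the expansion at `u = 1` of the defect of Tate's equation.

With `w = u - 2 + u⁻¹` the series are `X = hatX / w` and `Z = 2Y + X = hatZ / w²`.
-/
import Fermat.Agent.Tate.Formal.Deriv
import Mathlib.NumberTheory.Divisors
import Mathlib.Algebra.MonoidAlgebra.NoZeroDivisors
import Mathlib.RingTheory.PowerSeries.NoZeroDivisors
import Mathlib.Tactic.NormNum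

set_option autoImplicit false

noncomputable section

namespace Fermat.Agent.Tate

open AddMonoidAlgebra

/-- Laurent polynomials in `u` with integer coefficients. -/
abbrev LP : Type := AddMonoidAlgebra ℤ ℤ

/-- Power series in `q` over Laurent polynomials in `u`. -/
abbrev LPS : Type := PowerSeries LP

/-- The monomial `u ^ n`. -/
def um (n : ℤ) : LP := single n 1

theorem um_add (m n : ℤ) : um (m + n) = um m * um n := by
  simp [um, single_mul_single]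

theorem um_zero : um 0 = 1 := rfl

/-- `u d/du`. -/
abbrev θ : LP →+ LP := euler (AddMonoidHom.id ℤ)

/-- `u d/du`, coefficientwise. -/
abbrev sθ : LPS →+ LPS := sEuler (AddMonoidHom.id ℤ)

theorem θ_um (n : ℤ) : θ (um n) = n • um n := by
  simp [um, smul_single]

/-- `w = u - 2 + u⁻¹`. -/
def wP : LP := um 1 + um (-1) - 2

/-- `dw = u - u⁻¹`. -/
def dP : LP := um 1 - um (-1)

theorem θ_wP : θ wP = dP := by
  have h : θ (2 : LP) = 0 := by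
    rw [show (2 : LP) = single 0 2 from rfl, euler_single]
    simp
  rw [wP, map_sub, map_add, θ_um, θ_um, h, dP]
  simp [sub_eq_add_neg]

theorem dP_sq : dP ^ 2 = wP ^ 2 + 4 * wP := by
  have h : um 1 * um (-1) = 1 := by rw [← um_add]; rfl
  simp only [wP, dP]
  linear_combination (-4 : LP) * h

theorem wP_ne_zero : wP ≠ 0 := by
  intro h
  have h1 := congrArg (fun f : LP => f.coeff 1) h
  simp [wP, um, show (2 : LP) = single 0 2 from rfl] at h1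

/-- `u ^ m + u ^ (-m) - 2`. -/
def cP (m : ℕ) : LP := um m + um (-(m : ℤ)) - 2

theorem cP_recurrence (m : ℕ) : cP (m + 2) = (2 + wP) * cP (m + 1) - cP m + 2 * wP := by
  have e1 : um ((m + 2 : ℕ) : ℤ) = um ((m + 1 : ℕ) : ℤ) * um 1 := by
    rw [← um_add]; congr 1
  have e2 : um (-((m + 2 : ℕ) : ℤ)) = um (-((m + 1 : ℕ) : ℤ)) * um (-1) := by
    rw [← um_add]; congr 1
  have e3 : um ((m : ℕ) : ℤ) = um ((m + 1 : ℕ) : ℤ) * um (-1) := by
    rw [← um_add]; congr 1; push_cast; ring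
  have e4 : um (-((m : ℕ) : ℤ)) = um (-((m + 1 : ℕ) : ℤ)) * um 1 := by
    rw [← um_add]; congr 1; push_cast; ring
  simp only [cP, wP, e1, e2, e3, e4]
  ring

/-- `m² (m² - 1) / 12`, the second coefficient of `cP m` at `u = 1`. -/
def kCoeff (m : ℕ) : ℤ := (m : ℤ) ^ 2 * ((m : ℤ) ^ 2 - 1) / 12

theorem exists_cP_expansion (m : ℕ) :
    ∃ (k : ℤ) (r : LP), 12 * k = (m : ℤ) ^ 2 * ((m : ℤ) ^ 2 - 1) ∧
      cP m = ((m : ℤ) ^ 2 : LP) * wP + (k : LP) * wP ^ 2 + r * wP ^ 3 := by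
  suffices h : ∀ n : ℕ, (∃ (k : ℤ) (r : LP), 12 * k = (n : ℤ) ^ 2 * ((n : ℤ) ^ 2 - 1) ∧
      cP n = ((n : ℤ) ^ 2 : LP) * wP + (k : LP) * wP ^ 2 + r * wP ^ 3) ∧
      ∃ (k : ℤ) (r : LP),
      12 * k = ((n + 1 : ℕ) : ℤ) ^ 2 * (((n + 1 : ℕ) : ℤ) ^ 2 - 1) ∧
      cP (n + 1) = (((n + 1 : ℕ) : ℤ) ^ 2 : LP) * wP + (k : LP) * wP ^ 2 + r * wP ^ 3 by
    exact (h m).1
  intro n
  induction n with
  | zero =>
    refine ⟨⟨0, 0, by simp, ?_⟩, 0, 0, by simp, ?_⟩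
    · simp [cP, um_zero]; ring
    · simp [cP, wP]
  | succ n ih =>
    obtain ⟨⟨k₀, r₀, hk₀, hc₀⟩, k₁, r₁, hk₁, hc₁⟩ := ih
    refine ⟨⟨k₁, r₁, hk₁, hc₁⟩, 2 * k₁ - k₀ + ((n + 1 : ℕ) : ℤ) ^ 2,
      2 * r₁ + wP * r₁ + (k₁ : LP) - r₀, ?_, ?_⟩
    · push_cast at hk₀ hk₁ ⊢
      linear_combination 2 * hk₁ - hk₀
    · rw [cP_recurrence, hc₁, hc₀]
      push_cast
      ring

theorem twelve_mul_kCoeff (m : ℕ) : 12 * kCoeff m = (m : ℤ) ^ 2 * ((m : ℤ) ^ 2 - 1) := by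
  obtain ⟨k, _, hk, -⟩ := exists_cP_expansion m
  rw [kCoeff, ← hk]
  simp

theorem exists_cP_remainder (m : ℕ) :
    ∃ r : LP, cP m = ((m : ℤ) ^ 2 : LP) * wP + (kCoeff m : LP) * wP ^ 2 + r * wP ^ 3 := by
  obtain ⟨k, r, hk, hc⟩ := exists_cP_expansion m
  refine ⟨r, ?_⟩
  have : k = kCoeff m := by have := twelve_mul_kCoeff m; omega
  rwa [← this]

/-- The remainder of `cP m` after two terms. -/
def rP (m : ℕ) : LP := (exists_cP_remainder m).choose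

theorem cP_eq (m : ℕ) :
    cP m = ((m : ℤ) ^ 2 : LP) * wP + (kCoeff m : LP) * wP ^ 2 + rP m * wP ^ 3 :=
  (exists_cP_remainder m).choose_spec

/-- `σ₃`, as a power series. -/
def s3 : PowerSeries ℤ := PowerSeries.mk fun n => ∑ m ∈ n.divisors, (m : ℤ) ^ 3

/-- `(σ₅ - σ₃) / 12`, as a power series. -/
def s53 : PowerSeries ℤ := PowerSeries.mk fun n => ∑ m ∈ n.divisors, (m : ℤ) * kCoeff m

/-- Tate's `a₄`. -/
def a4s : PowerSeries ℤ := -5 * s3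

/-- Tate's `a₆`. -/
def a6s : PowerSeries ℤ := -s3 - 7 * s53

/-- Series with integer coefficients as series over Laurent polynomials. -/
def cs : PowerSeries ℤ →+* LPS := PowerSeries.map (Int.castRingHom LP)

theorem sθ_cs (f : PowerSeries ℤ) : sθ (cs f) = 0 := sEuler_map_intCast _ f

/-- The positive part in `q` of `X`. -/
def tailX : LPS := PowerSeries.mk fun n => ∑ m ∈ n.divisors, (m : LP) * cP m

/-- `w X`. -/
def hatX : LPS := 1 + PowerSeries.C wP * tailX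

/-- `w² Z`, with `Z = u dX/du = 2 Y + X`. -/
def hatZ : LPS := PowerSeries.C wP * sθ hatX - PowerSeries.C dP * hatX

/-- `w⁴` times the defect of the equation. -/
def defect : LPS :=
  hatZ ^ 2 - 4 * PowerSeries.C wP * hatX ^ 3 - PowerSeries.C wP ^ 2 * hatX ^ 2
    - 4 * cs a4s * PowerSeries.C wP ^ 3 * hatX - 4 * cs a6s * PowerSeries.C wP ^ 4

theorem sθ_hatX : sθ hatX = PowerSeries.C dP * tailX + PowerSeries.C wP * sθ tailX := by
  rw [hatX, map_add, sEuler_one, zero_add, sEuler_mul, sEuler_C, θ_wP]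

theorem hatZ_eq : hatZ = -PowerSeries.C dP + PowerSeries.C wP ^ 2 * sθ tailX := by
  rw [hatZ, sθ_hatX, hatX]
  ring

theorem exists_tailX_expansion : ∃ r : LPS, tailX =
    PowerSeries.C wP * cs s3 + PowerSeries.C wP ^ 2 * cs s53 + PowerSeries.C wP ^ 3 * r := by
  refine ⟨PowerSeries.mk fun n => ∑ m ∈ n.divisors, (m : LP) * rP m, ?_⟩
  ext1 n
  simp only [tailX, cs, s3, s53, ← map_pow, map_add, PowerSeries.coeff_C_mul,
    PowerSeries.coeff_map, PowerSeries.coeff_mk, map_sum, Finset.mul_sum,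
    ← Finset.sum_add_distrib]
  refine Finset.sum_congr rfl fun m _ => ?_
  rw [cP_eq, eq_intCast, eq_intCast]
  push_cast
  ring

theorem defect_aux {R : Type*} [CommRing R] (w d x₁ x₂ r s : R) (hd : d ^ 2 = w ^ 2 + 4 * w) :
    ∃ K : R,
      (-d * (1 - w ^ 2 * x₁ - 2 * w ^ 3 * x₂ - 3 * w ^ 4 * r) + w ^ 5 * s) ^ 2
        - 4 * w * (1 + w ^ 2 * x₁ + w ^ 3 * x₂ + w ^ 4 * r) ^ 3
        - w ^ 2 * (1 + w ^ 2 * x₁ + w ^ 3 * x₂ + w ^ 4 * r) ^ 2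
        - 4 * (-5 * x₁) * w ^ 3 * (1 + w ^ 2 * x₁ + w ^ 3 * x₂ + w ^ 4 * r)
        - 4 * (-x₁ - 7 * x₂) * w ^ 4 = w ^ 5 * K :=
  ⟨(-36) * r + (-6) * x₂ + 12 * x₁ ^ 2 + (-2) * d * s + (-8) * w * r + 12 * w * x₁ * x₂
    + 4 * w ^ 2 * x₂ ^ 2 + 20 * w ^ 2 * x₁ * r + 2 * w ^ 2 * x₁ * x₂
    + (-4) * w ^ 2 * x₁ ^ 3 + 2 * w ^ 2 * d * x₁ * s + 24 * w ^ 3 * x₂ * r
    + 3 * w ^ 3 * x₂ ^ 2 + 4 * w ^ 3 * x₁ * r + (-12) * w ^ 3 * x₁ ^ 2 * x₂
    + 4 * w ^ 3 * d * x₂ * s + 24 * w ^ 4 * r ^ 2 + 10 * w ^ 4 * x₂ * r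
    + (-12) * w ^ 4 * x₁ * x₂ ^ 2 + (-12) * w ^ 4 * x₁ ^ 2 * r + 6 * w ^ 4 * d * r * s
    + w ^ 5 * s ^ 2 + 8 * w ^ 5 * r ^ 2 + (-4) * w ^ 5 * x₂ ^ 3
    + (-24) * w ^ 5 * x₁ * x₂ * r + (-12) * w ^ 6 * x₂ ^ 2 * r + (-12) * w ^ 6 * x₁ * r ^ 2
    + (-12) * w ^ 7 * x₂ * r ^ 2 + (-4) * w ^ 8 * r ^ 3, by
    linear_combination (1 - w ^ 2 * x₁ - 2 * w ^ 3 * x₂ - 3 * w ^ 4 * r) ^ 2 * hd⟩

theorem exists_defect_eq : ∃ K : LPS, defect = PowerSeries.C wP ^ 5 * K := by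
  obtain ⟨r, hr⟩ := exists_tailX_expansion
  have hd : PowerSeries.C dP ^ 2 =
      PowerSeries.C wP ^ 2 + 4 * (PowerSeries.C wP : LPS) := by
    rw [← map_pow, dP_sq, map_add, map_mul, map_pow, map_ofNat]
  obtain ⟨K, hK⟩ := defect_aux (PowerSeries.C wP : LPS) (PowerSeries.C dP) (cs s3) (cs s53) r
    (sθ r) hd
  refine ⟨K, ?_⟩
  have hX : hatX = 1 + PowerSeries.C wP ^ 2 * cs s3 + PowerSeries.C wP ^ 3 * cs s53
      + PowerSeries.C wP ^ 4 * r := by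
    rw [hatX, hr]; ring
  have hZ : hatZ = -PowerSeries.C dP * (1 - PowerSeries.C wP ^ 2 * cs s3
      - 2 * PowerSeries.C wP ^ 3 * cs s53 - 3 * PowerSeries.C wP ^ 4 * r)
      + PowerSeries.C wP ^ 5 * sθ r := by
    rw [hatZ_eq, hr, map_add, map_add, sEuler_mul, sEuler_mul, sEuler_mul, sθ_cs, sθ_cs,
      sEuler_sq, sEuler_pow, sEuler_C, θ_wP]
    push_cast
    ring
  rw [← hK, defect, hX, hZ, a4s, a6s, map_mul, map_neg, map_sub, map_neg, map_mul, map_ofNat,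
    map_ofNat]

end Fermat.Agent.Tate
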