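/-
Tate's equation holds formally.

Expanded in the annulus `|q| < |u| < 1` the series live in `ℤ⟦a, b⟧` with `u = a`, `q = a b`,
where exchanging `a` and `b` is the symmetry `u ↦ q / u`. Together with the symmetry `u ↦ u⁻¹`
of the coefficients of each power of `q`, this forces the defect to be constant in `u`.
-/
import Fermat.Agent.Tate.Formal.Curve
import Mathlib.RingTheory.LaurentSeries

set_option autoImplicit false

noncomputable section

namespace Fermat.Agent.Tate

open AddMonoidAlgebra

/-- `ℤ⟦a, b⟧`, with outer variable `b`. -/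
abbrev AB : Type := PowerSeries (PowerSeries ℤ)

/-- Power series in `q` over Laurent series in `u`. -/
abbrev LSS : Type := PowerSeries (LaurentSeries ℤ)

/-- The coefficient of `a ^ A b ^ B`. -/
def abCoeff (A B : ℕ) (f : AB) : ℤ := PowerSeries.coeff A (PowerSeries.coeff B f)

theorem AB_ext {f g : AB} (h : ∀ A B, abCoeff A B f = abCoeff A B g) : f = g := by
  refine PowerSeries.ext fun B => PowerSeries.ext fun A => ?_
  exact h A B

/-- Exchange of `a` and `b`. -/
def swapAB (f : AB) : AB := PowerSeries.mk fun B => PowerSeries.mk fun A => abCoeff B A f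

@[simp]
theorem abCoeff_swapAB (A B : ℕ) (f : AB) : abCoeff A B (swapAB f) = abCoeff B A f := by
  simp [abCoeff, swapAB]

theorem swapAB_add (f g : AB) : swapAB (f + g) = swapAB f + swapAB g :=
  AB_ext fun A B => by simp [abCoeff, swapAB]

theorem swapAB_mul (f g : AB) : swapAB (f * g) = swapAB f * swapAB g := by
  refine AB_ext fun A B => ?_
  rw [abCoeff_swapAB]
  simp only [abCoeff, PowerSeries.coeff_mul, map_sum, swapAB, PowerSeries.coeff_mk]
  exact Finset.sum_comm

theorem swapAB_one : swapAB 1 = 1 := by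
  refine AB_ext fun A B => ?_
  rw [abCoeff_swapAB]
  simp only [abCoeff, PowerSeries.coeff_one]
  split_ifs <;> simp_all [PowerSeries.coeff_one]

/-- `swapAB` as a ring homomorphism. -/
def swapHom : AB →+* AB where
  toFun := swapAB
  map_one' := swapAB_one
  map_mul' := swapAB_mul
  map_zero' := AB_ext fun A B => by simp [abCoeff, swapAB]
  map_add' := swapAB_add

/-- The substitution `a ↦ u`, `b ↦ q / u`. -/
def toLSS : AB →+* LSS :=
  (PowerSeries.rescale (HahnSeries.single (-1 : ℤ) (1 : ℤ) : LaurentSeries ℤ)).comp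
    (PowerSeries.map (HahnSeries.ofPowerSeries ℤ ℤ))

theorem single_neg_one_pow (n : ℕ) :
    (HahnSeries.single (-1 : ℤ) (1 : ℤ) : LaurentSeries ℤ) ^ n =
      HahnSeries.single (-(n : ℤ)) 1 := by
  rw [HahnSeries.single_pow]
  simp

theorem coeff_toLSS (f : AB) (j : ℕ) (m : ℤ) :
    (PowerSeries.coeff j (toLSS f)).coeff m =
      if 0 ≤ (j : ℤ) + m then abCoeff ((j : ℤ) + m).toNat j f else 0 := by
  rw [toLSS, RingHom.comp_apply, PowerSeries.coeff_rescale, PowerSeries.coeff_map,
    single_neg_one_pow, show m = (j + m) + -(j : ℤ) by ring, HahnSeries.coeff_single_mul_add]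
  simp only [one_mul, add_comm (j : ℤ) m, add_neg_cancel_right]
  split_ifs with h
  · obtain ⟨k, hk⟩ := Int.eq_ofNat_of_zero_le h
    rw [hk, HahnSeries.ofPowerSeries_apply_coeff]
    simp [abCoeff]
  · rw [HahnSeries.ofPowerSeries_apply, HahnSeries.embDomain_of_notMem_range]
    simp only [Set.mem_range, not_exists]
    rintro k hk
    exact h (hk ▸ by simp)

/-- Laurent polynomials as Laurent series. -/
def lpToLS : LP →+* LaurentSeries ℤ :=
  AddMonoidAlgebra.liftNCRingHom (Int.castRingHom _)
    { toFun := fun n => HahnSeries.single (Multiplicative.toAdd n) 1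
      map_one' := rfl
      map_mul' := fun m n => by simp [HahnSeries.single_mul_single] }
    (fun _ _ => mul_comm _ _)

theorem lpToLS_single (n : ℤ) (c : ℤ) : lpToLS (single n c) = HahnSeries.single n c := by
  change liftNC _ _ (single n c) = _
  rw [liftNC_single]
  show (c : LaurentSeries ℤ) * HahnSeries.single n 1 = _
  rw [← zsmul_eq_mul]
  refine HahnSeries.ext (funext fun m => ?_)
  rw [HahnSeries.coeff_smul, HahnSeries.coeff_single, HahnSeries.coeff_single]
  split_ifs <;> simp

theorem lpToLS_um (n : ℤ) : lpToLS (um n) = HahnSeries.single n 1 := lpToLS_single n 1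

theorem coeff_lpToLS (f : LP) (m : ℤ) : (lpToLS f).coeff m = f.coeff m := by
  classical
  induction f using AddMonoidAlgebra.induction_linear with
  | zero => simp
  | add x y hx hy => simp [hx, hy]
  | single n c =>
    simp only [lpToLS_single, HahnSeries.coeff_single, coeff_single, Finsupp.single_apply,
      eq_comm (a := m)]

theorem lpToLS_injective : Function.Injective lpToLS := fun f g h =>
  coeff_injective <| Finsupp.ext fun m => by rw [← coeff_lpToLS, h, coeff_lpToLS]

/-- The embedding of coefficients. -/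
def lpsToLSS : LPS →+* LSS := PowerSeries.map lpToLS

/-- The coefficients of `X` in `ℤ⟦a, b⟧`. -/
def cXab (A B : ℕ) : ℤ :=
  if A = B then -2 * ∑ m ∈ B.divisors, (m : ℤ)
  else if ((A : ℤ) - B) ∣ (B : ℤ) then |(A : ℤ) - B| else 0

/-- The coefficients of `Z` in `ℤ⟦a, b⟧`. -/
def cZab (A B : ℕ) : ℤ :=
  if A = B then 0
  else if ((A : ℤ) - B) ∣ (B : ℤ) then ((A : ℤ) - B) * |(A : ℤ) - B| else 0

theorem dvd_left_iff (A B : ℕ) :
    ((B : ℤ) - A) ∣ (A : ℤ) ↔ ((A : ℤ) - B) ∣ (B : ℤ) := by
  rw [← neg_sub, neg_dvd]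
  constructor <;> intro h
  · simpa using dvd_sub h (dvd_refl ((A : ℤ) - B))
  · simpa using dvd_add h (dvd_refl ((A : ℤ) - B))

theorem cXab_symm (A B : ℕ) : cXab B A = cXab A B := by
  rcases eq_or_ne A B with rfl | h
  · rfl
  · simp only [cXab, if_neg h, if_neg h.symm, dvd_left_iff, abs_sub_comm]

theorem cZab_symm (A B : ℕ) : cZab B A = -cZab A B := by
  rcases eq_or_ne A B with rfl | h
  · simp [cZab]
  · simp only [cZab, if_neg h, if_neg h.symm, dvd_left_iff, abs_sub_comm (B : ℤ)]
    split_ifs <;> ring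

/-- `X` in `ℤ⟦a, b⟧`. -/
def abX : AB := PowerSeries.mk fun B => PowerSeries.mk fun A => cXab A B

/-- `Z` in `ℤ⟦a, b⟧`. -/
def abZ : AB := PowerSeries.mk fun B => PowerSeries.mk fun A => cZab A B

theorem swap_abX : swapHom abX = abX :=
  AB_ext fun A B => by
    show abCoeff A B (swapAB abX) = _
    simp [abCoeff, swapAB, abX, cXab_symm]

theorem swap_abZ : swapHom abZ = -abZ :=
  AB_ext fun A B => by
    show abCoeff A B (swapAB abZ) = _
    simp [abCoeff, swapAB, abZ, cZab_symm A B]

theorem coeff_cP (n : ℕ) (m : ℤ) (_hn : n ≠ 0) : (cP n).coeff m =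
    (if m = n then 1 else 0) + (if m = -n then 1 else 0) - if m = 0 then 2 else 0 := by
  classical
  simp only [cP, um, show (2 : LP) = single 0 2 from rfl, coeff_sub, coeff_add, coeff_single,
    Finsupp.coe_sub, Finsupp.coe_add, Pi.sub_apply, Pi.add_apply, Finsupp.single_apply,
    eq_comm (a := m)]

theorem coeff_natCast_mul_lp (n : ℕ) (f : LP) (m : ℤ) :
    ((n : LP) * f).coeff m = (n : ℤ) * f.coeff m := by
  rw [← nsmul_eq_mul, coeff_smul, Finsupp.smul_apply, nsmul_eq_mul]

theorem coeff_tailX (j : ℕ) (m : ℤ) :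
    (PowerSeries.coeff j tailX).coeff m =
      if m = 0 then -2 * ∑ d ∈ j.divisors, (d : ℤ)
      else if m.natAbs ∈ j.divisors then (m.natAbs : ℤ) else 0 := by
  classical
  simp only [tailX, PowerSeries.coeff_mk, coeff_sum, Finsupp.coe_finsetSum, Finset.sum_apply,
    coeff_natCast_mul_lp]
  rw [Finset.sum_congr rfl (fun d hd => by
    rw [coeff_cP d m (Nat.pos_of_mem_divisors hd).ne'])]
  split_ifs with h hm
  · subst h
    rw [Finset.mul_sum]
    refine Finset.sum_congr rfl fun d hd => ?_
    have := (Nat.pos_of_mem_divisors hd).ne'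
    rw [if_neg (by omega), if_neg (by omega)]
    ring
  · rw [Finset.sum_eq_single m.natAbs (fun d _ hd => ?_) (fun h' => absurd hm h')]
    · rcases Int.natAbs_eq m with h1 | h1
      · rw [if_pos h1, if_neg (by omega)]; ring
      · rw [if_neg (by omega), if_pos h1]; ring
    · rw [if_neg (by omega), if_neg (by omega)]; ring
  · refine Finset.sum_eq_zero fun d hd => ?_
    have : d ≠ m.natAbs := fun h' => hm (h' ▸ hd)
    rw [if_neg (by omega), if_neg (by omega)]
    ring

theorem natAbs_mem_divisors_iff {j : ℕ} {m : ℤ} (hj : j ≠ 0) :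
    m.natAbs ∈ j.divisors ↔ m ∣ (j : ℤ) := by
  rw [Nat.mem_divisors, and_iff_left hj, ← Int.natAbs_dvd_natAbs, Int.natAbs_natCast]

theorem coeff_toLSS_abX {j : ℕ} (hj : j ≠ 0) :
    PowerSeries.coeff j (toLSS abX) = lpToLS (PowerSeries.coeff j tailX) := by
  ext m
  rw [coeff_toLSS, coeff_lpToLS, coeff_tailX]
  simp only [natAbs_mem_divisors_iff hj, abCoeff, abX, PowerSeries.coeff_mk]
  by_cases h : 0 ≤ (j : ℤ) + m
  · obtain ⟨k, hk⟩ := Int.eq_ofNat_of_zero_le h
    obtain rfl : m = (k : ℤ) - j := by omega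
    rw [if_pos h, show ((j : ℤ) + ((k : ℤ) - j)).toNat = k by omega, cXab]
    rcases eq_or_ne k j with rfl | hkj
    · simp
    · rw [if_neg hkj, if_neg (by omega : (k : ℤ) - j ≠ 0), Int.natCast_natAbs]
  · rw [if_neg h, if_neg (by omega : m ≠ 0), if_neg]
    intro hd
    have := Int.le_of_dvd (by omega) ((neg_dvd).2 hd)
    omega

theorem coeff_toLSS_abZ {j : ℕ} (hj : j ≠ 0) :
    PowerSeries.coeff j (toLSS abZ) = lpToLS (θ (PowerSeries.coeff j tailX)) := by
  ext m
  rw [coeff_toLSS, coeff_lpToLS, coeff_euler, coeff_tailX]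
  simp only [natAbs_mem_divisors_iff hj, abCoeff, abZ, PowerSeries.coeff_mk, AddMonoidHom.id_apply]
  by_cases h : 0 ≤ (j : ℤ) + m
  · obtain ⟨k, hk⟩ := Int.eq_ofNat_of_zero_le h
    obtain rfl : m = (k : ℤ) - j := by omega
    rw [if_pos h, show ((j : ℤ) + ((k : ℤ) - j)).toNat = k by omega, cZab]
    rcases eq_or_ne k j with rfl | hkj
    · simp
    · rw [if_neg hkj, if_neg (by omega : (k : ℤ) - j ≠ 0), mul_ite, mul_zero, Int.natCast_natAbs]
  · rw [if_neg h, if_neg (by omega : m ≠ 0), if_neg, mul_zero]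
    intro hd
    have := Int.le_of_dvd (by omega) ((neg_dvd).2 hd)
    omega

theorem coeff_wP_mul (f : LaurentSeries ℤ) (m : ℤ) :
    (lpToLS wP * f).coeff m = f.coeff (m - 1) + f.coeff (m + 1) - 2 * f.coeff m := by
  have h : lpToLS wP = HahnSeries.single 1 1 + HahnSeries.single (-1) 1 - 2 := by
    simp [wP, lpToLS_um, map_add, map_sub, map_ofNat]
  rw [h, sub_mul, add_mul, HahnSeries.coeff_sub, HahnSeries.coeff_add, two_mul f,
    HahnSeries.coeff_add, ← two_mul]
  conv_lhs =>
    rw [show m = m - 1 + 1 by ring, HahnSeries.coeff_single_mul_add]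
  conv_lhs =>
    enter [1, 2]
    rw [show m - 1 + 1 = m + 1 + -1 by ring, HahnSeries.coeff_single_mul_add]
  simp

theorem lss_coeff_zero_abX (m : ℤ) :
    (PowerSeries.coeff 0 (toLSS abX)).coeff m = if 0 ≤ m then m else 0 := by
  rw [coeff_toLSS]
  simp only [Nat.cast_zero, zero_add, abCoeff, abX, PowerSeries.coeff_mk, cXab]
  split_ifs with h1 h2 h3 <;>
    first
      | rfl
      | (simp_all; omega)
      | simp_all

theorem lss_coeff_zero_abZ (m : ℤ) :
    (PowerSeries.coeff 0 (toLSS abZ)).coeff m = if 0 ≤ m then m ^ 2 else 0 := by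
  rw [coeff_toLSS]
  simp only [Nat.cast_zero, zero_add, abCoeff, abZ, PowerSeries.coeff_mk, cZab]
  split_ifs with h1 h2 h3 <;>
    first
      | rfl
      | (have : m = 0 := by omega
         subst this; rfl)
      | simp_all [pow_two]

theorem wP_mul_coeff_zero_abX : lpToLS wP * PowerSeries.coeff 0 (toLSS abX) = 1 := by
  ext m
  simp only [coeff_wP_mul, lss_coeff_zero_abX, HahnSeries.coeff_one]
  rcases (by omega : m ≤ -2 ∨ m = -1 ∨ m = 0 ∨ 1 ≤ m) with h | rfl | rfl | h
  · simp (disch := omega) only [if_neg]; norm_num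
  · norm_num
  · norm_num
  · simp (disch := omega) only [if_neg, if_pos]; ring

theorem wP_sq_mul_coeff_zero_abZ :
    lpToLS wP * (lpToLS wP * PowerSeries.coeff 0 (toLSS abZ)) = lpToLS (-dP) := by
  ext m
  classical
  simp only [coeff_lpToLS, dP, um, neg_sub, coeff_sub, coeff_single, Finsupp.coe_sub, Pi.sub_apply,
    Finsupp.single_apply, coeff_wP_mul, lss_coeff_zero_abZ]
  rcases (by omega : m ≤ -3 ∨ m = -2 ∨ m = -1 ∨ m = 0 ∨ m = 1 ∨ 2 ≤ m) with
    h | rfl | rfl | rfl | rfl | h
  · simp (disch := omega) only [if_neg]; norm_num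
  · norm_num
  · norm_num
  · norm_num
  · norm_num
  · simp (disch := omega) only [if_neg, if_pos]; ring

theorem lpsToLSS_hatX : lpsToLSS hatX = PowerSeries.C (lpToLS wP) * toLSS abX := by
  refine PowerSeries.ext fun j => ?_
  rw [lpsToLSS, PowerSeries.coeff_map, hatX, map_add, PowerSeries.coeff_one,
    PowerSeries.coeff_C_mul, PowerSeries.coeff_C_mul, map_add, map_mul]
  rcases eq_or_ne j 0 with rfl | hj
  · rw [if_pos rfl, wP_mul_coeff_zero_abX]
    simp [tailX]
  · rw [if_neg hj, coeff_toLSS_abX hj]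
    simp

theorem lpsToLSS_hatZ : lpsToLSS hatZ = PowerSeries.C (lpToLS wP) ^ 2 * toLSS abZ := by
  refine PowerSeries.ext fun j => ?_
  rw [lpsToLSS, PowerSeries.coeff_map, hatZ_eq, ← map_pow, ← map_pow, map_add,
    PowerSeries.coeff_C_mul, PowerSeries.coeff_C_mul, coeff_sEuler, map_neg, PowerSeries.coeff_C,
    map_add, map_mul, map_pow, map_neg]
  rcases eq_or_ne j 0 with rfl | hj
  · rw [if_pos rfl, pow_two (lpToLS wP), mul_assoc (lpToLS wP) (lpToLS wP)
      (PowerSeries.coeff 0 (toLSS abZ)), wP_sq_mul_coeff_zero_abZ]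
    simp [tailX]
  · rw [if_neg hj, coeff_toLSS_abZ hj]
    simp

/-- A series in `q = a b` in `ℤ⟦a, b⟧`. -/
def diagAB (f : PowerSeries ℤ) : AB :=
  PowerSeries.mk fun B => PowerSeries.monomial B (PowerSeries.coeff B f)

theorem abCoeff_diagAB (A B : ℕ) (f : PowerSeries ℤ) :
    abCoeff A B (diagAB f) = if A = B then PowerSeries.coeff B f else 0 := by
  simp [abCoeff, diagAB, PowerSeries.coeff_monomial]

theorem swap_diagAB (f : PowerSeries ℤ) : swapHom (diagAB f) = diagAB f :=
  AB_ext fun A B => by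
    show abCoeff A B (swapAB (diagAB f)) = _
    rw [abCoeff_swapAB, abCoeff_diagAB, abCoeff_diagAB]
    rcases eq_or_ne A B with rfl | h
    · rfl
    · rw [if_neg h, if_neg h.symm]

theorem toLSS_diagAB (f : PowerSeries ℤ) : toLSS (diagAB f) = lpsToLSS (cs f) := by
  refine PowerSeries.ext fun j => ?_
  ext m
  rw [coeff_toLSS, lpsToLSS, cs, PowerSeries.coeff_map, PowerSeries.coeff_map, eq_intCast,
    map_intCast, abCoeff_diagAB]
  rw [show ((PowerSeries.coeff j f : ℤ) : LaurentSeries ℤ) =
      HahnSeries.single (0 : ℤ) (PowerSeries.coeff j f) from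
    (by rw [← lpToLS_single, show (single (0 : ℤ) (PowerSeries.coeff j f) : LP) =
        ((PowerSeries.coeff j f : ℤ) : LP) from rfl, map_intCast]), HahnSeries.coeff_single]
  split_ifs <;> omega

/-- The defect in `ℤ⟦a, b⟧`. -/
def abDefect : AB :=
  abZ ^ 2 - 4 * abX ^ 3 - abX ^ 2 - 4 * diagAB a4s * abX - 4 * diagAB a6s

theorem swap_abDefect : swapHom abDefect = abDefect := by
  simp only [abDefect, map_sub, map_mul, map_pow, map_ofNat, swap_abX, swap_abZ, swap_diagAB]
  ring

theorem lpsToLSS_defect :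
    lpsToLSS defect = PowerSeries.C (lpToLS wP) ^ 4 * toLSS abDefect := by
  have hC : lpsToLSS (PowerSeries.C wP) = PowerSeries.C (lpToLS wP) := PowerSeries.map_C _ _
  simp only [defect, abDefect, map_sub, map_mul, map_pow, map_ofNat, lpsToLSS_hatX, lpsToLSS_hatZ,
    toLSS_diagAB, hC]
  ring

/-- Inversion `u ↦ u⁻¹`. -/
def inv1 : LP →+* LP := mapDomainRingHom ℤ (-AddMonoidHom.id ℤ)

theorem inv1_um (n : ℤ) : inv1 (um n) = um (-n) := mapDomain_single

theorem coeff_inv1 (f : LP) (m : ℤ) : (inv1 f).coeff m = f.coeff (-m) := by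
  classical
  induction f using AddMonoidAlgebra.induction_linear with
  | zero => simp
  | add x y hx hy => simp only [map_add, coeff_add, Finsupp.coe_add, Pi.add_apply, hx, hy]
  | single n c =>
    rw [inv1, mapDomainRingHom_apply, mapDomain_single, coeff_single, coeff_single]
    simp [Finsupp.single_apply, neg_eq_iff_eq_neg]

theorem inv1_wP : inv1 wP = wP := by
  simp only [wP, map_sub, map_add, inv1_um, neg_neg, map_ofNat]
  ring

theorem inv1_dP : inv1 dP = -dP := by
  simp only [dP, map_sub, inv1_um, neg_neg, neg_sub]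

theorem inv1_hatX : PowerSeries.map inv1 hatX = hatX := by
  have h : PowerSeries.map inv1 tailX = tailX := by
    ext1 n
    simp only [tailX, PowerSeries.coeff_map, PowerSeries.coeff_mk, map_sum, map_mul, map_natCast]
    refine Finset.sum_congr rfl fun m _ => ?_
    simp only [cP, map_sub, map_add, inv1_um, neg_neg, map_ofNat]
    ring
  simp only [hatX, map_add, map_one, map_mul, PowerSeries.map_C, inv1_wP, h]

theorem θ_inv1 (f : LP) : θ (inv1 f) = -inv1 (θ f) := by
  refine coeff_injective (Finsupp.ext fun m => ?_)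
  simp [coeff_euler, coeff_inv1]

theorem sθ_map_inv1 (f : LPS) : sθ (PowerSeries.map inv1 f) = -PowerSeries.map inv1 (sθ f) := by
  ext1 n
  simp [θ_inv1]

theorem inv1_hatZ : PowerSeries.map inv1 hatZ = -hatZ := by
  have h := sθ_map_inv1 hatX
  rw [inv1_hatX, eq_neg_iff_add_eq_zero, add_comm, ← eq_neg_iff_add_eq_zero] at h
  simp only [hatZ, map_sub, map_mul, PowerSeries.map_C, inv1_wP, inv1_dP, inv1_hatX, h,
    map_neg]
  ring

theorem map_inv1_cs (f : PowerSeries ℤ) : PowerSeries.map inv1 (cs f) = cs f := by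
  ext1 n
  simp [cs]

theorem inv1_defect : PowerSeries.map inv1 defect = defect := by
  simp only [defect, map_sub, map_mul, map_pow, map_ofNat, inv1_hatX, inv1_hatZ, map_inv1_cs,
    PowerSeries.map_C, inv1_wP]
  ring

/-- Evaluation at `u = 1`. -/
def at1 : LP →+* ℤ := AddMonoidAlgebra.liftNCRingHom (RingHom.id ℤ) 1 (fun _ _ => mul_comm _ _)

theorem at1_single (n c : ℤ) : at1 (single n c) = c := by
  change liftNC _ _ (single n c) = _
  rw [liftNC_single]
  simp

theorem at1_wP : at1 wP = 0 := by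
  rw [wP, map_sub, map_add, um, um, at1_single, at1_single, map_ofNat]
  norm_num

/-- Tate's equation, formally. -/
theorem defect_eq_zero : defect = 0 := by
  classical
  obtain ⟨K, hK⟩ := exists_defect_eq
  have hw : (PowerSeries.C wP : LPS) ≠ 0 := by
    intro h
    exact wP_ne_zero (by simpa using congrArg (PowerSeries.constantCoeff) h)
  set F : LPS := PowerSeries.C wP * K with hF
  have hdef : defect = PowerSeries.C wP ^ 4 * F := by rw [hK, hF]; ring
  have hinv : PowerSeries.map inv1 F = F := by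
    have h := inv1_defect
    rw [hdef, map_mul, map_pow, PowerSeries.map_C, inv1_wP] at h
    exact mul_left_cancel₀ (pow_ne_zero _ hw) h
  have hls : (PowerSeries.C (lpToLS wP) : LSS) ≠ 0 := by
    intro h
    exact wP_ne_zero (lpToLS_injective (by simpa using congrArg (PowerSeries.constantCoeff) h))
  have hab : lpsToLSS F = toLSS abDefect := by
    have h := lpsToLSS_defect
    rw [hdef, map_mul, map_pow, lpsToLSS, PowerSeries.map_C] at h
    exact mul_left_cancel₀ (pow_ne_zero _ hls) h
  -- the coefficient of `u ^ m q ^ j`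
  let c : ℕ → ℤ → ℤ := fun j m => (PowerSeries.coeff j F).coeff m
  have hc : ∀ j m, c j m =
      if 0 ≤ (j : ℤ) + m then abCoeff ((j : ℤ) + m).toNat j abDefect else 0 := fun j m => by
    rw [← coeff_toLSS, ← hab, lpsToLSS, PowerSeries.coeff_map, coeff_lpToLS]
  have hneg : ∀ j m, c j (-m) = c j m := fun j m => by
    show _ = (PowerSeries.coeff j F).coeff m
    conv_rhs => rw [← hinv, PowerSeries.coeff_map, coeff_inv1]
  have hswap : ∀ (j : ℕ) (m : ℤ) (k : ℕ), (j : ℤ) + m = k → c j m = c k (-m) := fun j m k h => by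
    rw [hc, hc, if_pos (by omega), if_pos (by omega)]
    have e1 : ((j : ℤ) + m).toNat = k := by omega
    have e2 : ((k : ℤ) + -m).toNat = j := by omega
    rw [e1, e2, ← abCoeff_swapAB k j, show swapAB abDefect = abDefect from swap_abDefect]
  have hzero : ∀ j, ∀ m, m ≠ 0 → c j m = 0 := by
    intro j
    induction j using Nat.strong_induction_on with
    | _ j ih =>
      suffices h : ∀ m : ℤ, 0 < m → c j m = 0 by
        intro m hm
        rcases lt_or_gt_of_ne hm with h' | h'
        · rw [← hneg j m]; exact h (-m) (by omega)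
        · exact h m h'
      intro m hm
      rw [← hneg j m]
      by_cases hjm : m ≤ (j : ℤ)
      · obtain ⟨k, hk⟩ := Int.eq_ofNat_of_zero_le (show (0 : ℤ) ≤ j + -m by omega)
        rw [hswap j (-m) k hk, neg_neg]
        exact ih k (by omega) m (by omega)
      · rw [hc, if_neg (by omega)]
  have hF0 : F = 0 := by
    refine PowerSeries.ext fun j => coeff_injective (Finsupp.ext fun m => ?_)
    by_cases hm : m = 0
    · subst hm
      have hs : PowerSeries.coeff j F = single 0 (c j 0) := by
        refine coeff_injective (Finsupp.ext fun m => ?_)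
        by_cases hm : m = 0
        · subst hm; rw [coeff_single, Finsupp.single_eq_same]
        · rw [coeff_single, Finsupp.single_eq_of_ne hm]; exact hzero j m hm
      have h1 : at1 (PowerSeries.coeff j F) = 0 := by
        rw [hF, PowerSeries.coeff_C_mul, map_mul, at1_wP, zero_mul]
      rw [hs, at1_single] at h1
      exact h1.trans (by simp)
    · simpa using hzero j m hm
  rw [hdef, hF0, mul_zero]

end Fermat.Agent.Tate
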