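/-
The addition theorem for Tate's series, formally in two variables `u`, `v`:
the third point at `u v` is the sum of the points at `u` and `v`.

If `f` is the defect of the `x`-coordinate of the addition law, the derivation
`u d/du - v d/dv` multiplies it by a factor which is regular and invertible at `v = 1`, where
`f` vanishes; hence `f = 0`. The `y`-coordinate follows by differentiation.
-/
import Fermat.Agent.Tate.Formal.Equation
import Mathlib.Algebra.DualNumber
import Mathlib.RingTheory.Localization.FractionRing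
import Mathlib.Algebra.Polynomial.BigOperators

set_option autoImplicit false

noncomputable section

namespace Fermat.Agent.Tate

open AddMonoidAlgebra

/-- Laurent polynomials in `u`, `v`. -/
abbrev LP2 : Type := AddMonoidAlgebra ℤ (ℤ × ℤ)

/-- Power series in `q` over Laurent polynomials in `u`, `v`. -/
abbrev LPS2 : Type := PowerSeries LP2

/-- The substitution `u ↦ u`. -/
def gU : ℤ →+ ℤ × ℤ := AddMonoidHom.inl ℤ ℤ

/-- The substitution `u ↦ v`. -/
def gV : ℤ →+ ℤ × ℤ := AddMonoidHom.inr ℤ ℤ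

/-- The substitution `u ↦ u v`. -/
def gW : ℤ →+ ℤ × ℤ := (AddMonoidHom.id ℤ).prod (AddMonoidHom.id ℤ)

/-- Substitution of a monomial for `u` in a series. -/
def sSub (g : ℤ →+ ℤ × ℤ) : LPS →+* LPS2 := PowerSeries.map (mapDomainRingHom ℤ g)

/-- The constants. -/
def cs2 : PowerSeries ℤ →+* LPS2 := PowerSeries.map (Int.castRingHom LP2)

theorem sSub_cs (g : ℤ →+ ℤ × ℤ) (f : PowerSeries ℤ) : sSub g (cs f) = cs2 f := by
  ext1 n
  simp only [sSub, cs, cs2, PowerSeries.coeff_map, eq_intCast, map_intCast]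

/-- Specialisation `v = 1`. -/
def evOne : LP2 →+* LP := mapDomainRingHom ℤ (AddMonoidHom.fst ℤ ℤ)

/-- Specialisation `v = 1` of series. -/
def sEvOne : LPS2 →+* LPS := PowerSeries.map evOne

/-- The direction killing `u v`. -/
def χd : ℤ × ℤ →+ ℤ := AddMonoidHom.fst ℤ ℤ - AddMonoidHom.snd ℤ ℤ

/-! ### Vanishing at `v = 1` to infinite order -/

/-- `f` and its derivatives of order `≤ i` vanish at `v = 1`. -/
def VanishesTo : ℕ → LPS2 → Prop
  | 0, f => sEvOne f = 0
  | i + 1, f => sEvOne f = 0 ∧ VanishesTo i (sEuler χd f)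

theorem VanishesTo.eval {i : ℕ} {f : LPS2} (h : VanishesTo i f) : sEvOne f = 0 := by
  cases i with
  | zero => exact h
  | succ i => exact h.1

theorem VanishesTo.mono : ∀ {i : ℕ} {f : LPS2}, VanishesTo (i + 1) f → VanishesTo i f
  | 0, _, h => h.1
  | _ + 1, _, h => ⟨h.1, h.2.mono⟩

theorem VanishesTo.add : ∀ {i : ℕ} {f g : LPS2},
    VanishesTo i f → VanishesTo i g → VanishesTo i (f + g)
  | 0, f, g, hf, hg => by
    show sEvOne (f + g) = 0
    rw [map_add, show sEvOne f = 0 from hf, show sEvOne g = 0 from hg, add_zero]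
  | _ + 1, f, g, hf, hg =>
    ⟨by rw [map_add, hf.1, hg.1, add_zero], by rw [map_add]; exact hf.2.add hg.2⟩

theorem VanishesTo.mul_left : ∀ {i : ℕ} (a : LPS2) {f : LPS2},
    VanishesTo i f → VanishesTo i (a * f)
  | 0, a, f, hf => by
    show sEvOne (a * f) = 0
    rw [map_mul, show sEvOne f = 0 from hf, mul_zero]
  | i + 1, a, f, hf =>
    ⟨by rw [map_mul, hf.1, mul_zero],
      by rw [sEuler_mul]; exact (hf.mono.mul_left _).add (hf.2.mul_left a)⟩

theorem VanishesTo.neg {i : ℕ} {f : LPS2} (h : VanishesTo i f) : VanishesTo i (-f) := by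
  simpa using h.mul_left (-1)

theorem VanishesTo.of_mul : ∀ {i : ℕ} {a f : LPS2}, sEvOne a ≠ 0 →
    VanishesTo i (a * f) → VanishesTo i f
  | 0, a, f, ha, h => by
    have h' : sEvOne (a * f) = 0 := h
    rw [map_mul] at h'
    exact (mul_eq_zero.1 h').resolve_left ha
  | i + 1, a, f, ha, h => by
    have hf : VanishesTo i f := VanishesTo.of_mul ha h.mono
    refine ⟨hf.eval, VanishesTo.of_mul ha ?_⟩
    have h2 := h.2
    rw [sEuler_mul] at h2
    simpa [add_comm] using (hf.mul_left (sEuler χd a)).neg.add h2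

theorem vanishesTo_of_linear_relation {a b f : LPS2} (ha : sEvOne a ≠ 0)
    (hf : sEvOne f = 0) (h : a * sEuler χd f = b * f) : ∀ i, VanishesTo i f
  | 0 => hf
  | i + 1 => ⟨hf, VanishesTo.of_mul ha
      (h ▸ (vanishesTo_of_linear_relation ha hf h i).mul_left b)⟩

theorem VanishesTo.eval_iterate : ∀ {i : ℕ} {f : LPS2},
    VanishesTo i f → ∀ n, evOne ((euler χd)^[i] (PowerSeries.coeff n f)) = 0
  | 0, f, h, n => by simpa [sEvOne] using congrArg (PowerSeries.coeff n) (show sEvOne f = 0 from h)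
  | i + 1, f, h, n => by
    rw [Function.iterate_succ_apply, ← coeff_sEuler]
    exact h.2.eval_iterate n

theorem coeff_euler_iterate (χ : ℤ × ℤ →+ ℤ) (f : LP2) (x : ℤ × ℤ) :
    ∀ i : ℕ, ((euler χ)^[i] f).coeff x = χ x ^ i * f.coeff x
  | 0 => by simp
  | i + 1 => by
    rw [Function.iterate_succ_apply', coeff_euler, coeff_euler_iterate χ f x i, pow_succ]
    ring

theorem eq_zero_of_forall_evOne {f : LP2} (h : ∀ i, evOne ((euler χd)^[i] f) = 0) : f = 0 := by
  classical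
  refine coeff_injective (Finsupp.ext fun x => ?_)
  by_contra hx
  simp only [coeff_zero, Finsupp.coe_zero, Pi.zero_apply] at hx
  set T := f.coeff.support.filter (fun y => y.1 = x.1) with hT
  have hpow : ∀ i : ℕ, ∑ y ∈ T, f.coeff y * χd y ^ i = 0 := by
    intro i
    have h1 := congrArg (fun g : LP => g.coeff x.1) (h i)
    simp only [evOne, mapDomainRingHom_apply, coeff_zero, Finsupp.coe_zero, Pi.zero_apply,
      coeff_mapDomain, Finsupp.mapDomain, Finsupp.sum_apply, Finsupp.single_apply,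
      AddMonoidHom.coe_fst] at h1
    have hsub : ((euler χd)^[i] f).coeff.support ⊆ f.coeff.support := fun y hy => by
      rw [Finsupp.mem_support_iff, coeff_euler_iterate] at hy
      exact Finsupp.mem_support_iff.2 (right_ne_zero_of_mul hy)
    rw [Finsupp.sum_of_support_subset _ hsub _ (fun y _ => by simp)] at h1
    rw [hT, Finset.sum_filter]
    refine Eq.trans (Finset.sum_congr rfl fun y _ => ?_) h1
    split_ifs
    · rw [coeff_euler_iterate]; ring
    · rfl
  have hP : ∀ P : Polynomial ℤ, ∑ y ∈ T, f.coeff y * P.eval (χd y) = 0 := by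
    intro P
    induction P using Polynomial.induction_on' with
    | add p q hp hq => simp [mul_add, Finset.sum_add_distrib, hp, hq]
    | monomial n a =>
      simp only [Polynomial.eval_monomial, mul_left_comm _ a, ← Finset.mul_sum, hpow n, mul_zero]
  have hxT : x ∈ T := by simp [hT, hx]
  have h2 := hP (∏ y ∈ T.erase x, (Polynomial.X - Polynomial.C (χd y)))
  rw [Finset.sum_eq_single_of_mem x hxT] at h2
  · rw [Polynomial.eval_prod] at h2
    refine mul_ne_zero hx (Finset.prod_ne_zero_iff.2 fun y hy => ?_) h2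
    obtain ⟨hne, hy⟩ := Finset.mem_erase.1 hy
    have h1 : y.1 = x.1 := (Finset.mem_filter.1 hy).2
    have h3 : y.2 ≠ x.2 := fun h3 => hne (Prod.ext h1 h3)
    simp only [Polynomial.eval_sub, Polynomial.eval_X, Polynomial.eval_C, χd,
      AddMonoidHom.sub_apply, AddMonoidHom.coe_fst, AddMonoidHom.coe_snd]
    omega
  · intro y hy hyx
    rw [Polynomial.eval_prod, Finset.prod_eq_zero (Finset.mem_erase.2 ⟨hyx, hy⟩) (by simp),
      mul_zero]

theorem eq_zero_of_linear_relation {a b f : LPS2} (ha : sEvOne a ≠ 0)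
    (hf : sEvOne f = 0) (h : a * sEuler χd f = b * f) : f = 0 := by
  refine PowerSeries.ext fun n => ?_
  rw [map_zero]
  exact eq_zero_of_forall_evOne fun i =>
    (vanishesTo_of_linear_relation ha hf h i).eval_iterate n

/-! ### Derivations of the fraction field -/

section extend

variable {R : Type*} [CommRing R] [IsDomain R] (D : R →+ R)

local notation "K" => FractionRing R

/-- `a ↦ a + ε D a`. -/
def dualHom (hD : ∀ a b, D (a * b) = D a * b + a * D b) : R →+* TrivSqZeroExt K K where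
  toFun a := TrivSqZeroExt.inl (algebraMap R K a) + TrivSqZeroExt.inr (algebraMap R K (D a))
  map_one' := by
    have h := hD 1 1
    simp only [mul_one, one_mul] at h
    have : D 1 = 0 := by linear_combination -h
    simp [this]
  map_mul' a b := by
    refine TrivSqZeroExt.ext (by simp) ?_
    simp only [TrivSqZeroExt.snd_mul, TrivSqZeroExt.snd_add, TrivSqZeroExt.snd_inl,
      TrivSqZeroExt.snd_inr, TrivSqZeroExt.fst_add, TrivSqZeroExt.fst_inl, TrivSqZeroExt.fst_inr,
      smul_eq_mul, op_smul_eq_mul, map_add, map_mul, hD]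
    ring
  map_zero' := by simp
  map_add' a b := by
    refine TrivSqZeroExt.ext (by simp) ?_
    simp [Algebra.smul_def]

theorem exists_extension (hD : ∀ a b, D (a * b) = D a * b + a * D b) :
    ∃ E : K →+ K, (∀ a b, E (a * b) = E a * b + a * E b) ∧
      ∀ a, E (algebraMap R K a) = algebraMap R K (D a) := by
  have hu : ∀ y : nonZeroDivisors R, IsUnit (dualHom D hD y) := fun y => by
    rw [TrivSqZeroExt.isUnit_iff_isUnit_fst, isUnit_iff_ne_zero]
    simpa [dualHom] using nonZeroDivisors.coe_ne_zero y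
  set L : K →+* TrivSqZeroExt K K := IsLocalization.lift (M := nonZeroDivisors R) hu with hL
  have hfst : ∀ x, (L x).fst = x := by
    intro x
    have h : (TrivSqZeroExt.fstHom K K K).toRingHom.comp L = RingHom.id K := by
      refine IsLocalization.ringHom_ext (nonZeroDivisors R) (RingHom.ext fun a => ?_)
      simp [hL, IsLocalization.lift_eq, dualHom]
    exact RingHom.congr_fun h x
  refine ⟨⟨⟨fun x => (L x).snd, by simp⟩, fun a b => by simp⟩, fun a b => ?_, fun a => ?_⟩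
  · show (L (a * b)).snd = (L a).snd * b + a * (L b).snd
    rw [map_mul, TrivSqZeroExt.snd_mul, hfst, hfst]
    simp
    ring
  · show (L (algebraMap R K a)).snd = _
    simp only [hL, IsLocalization.lift_eq, dualHom, RingHom.coe_mk, MonoidHom.coe_mk,
      OneHom.coe_mk, TrivSqZeroExt.snd_add, TrivSqZeroExt.snd_inl, TrivSqZeroExt.snd_inr, zero_add]

theorem deriv_div {F : Type*} [Field F] (E : F →+ F)
    (hE : ∀ a b, E (a * b) = E a * b + a * E b) (a : F) {b : F} (hb : b ≠ 0) :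
    E (a / b) = (E a * b - a * E b) / b ^ 2 := by
  have h := hE (a / b) b
  rw [div_mul_cancel₀ a hb] at h
  field_simp at h ⊢
  linear_combination -h

end extend

/-! ### The second derivative -/

/-- `u d/du` of `Z` is `6 X² + X + 2 a₄`. -/
theorem sθ_hatZ :
    PowerSeries.C wP * sθ hatZ = 2 * PowerSeries.C dP * hatZ + 6 * PowerSeries.C wP * hatX ^ 2
      + PowerSeries.C wP ^ 2 * hatX + 2 * cs a4s * PowerSeries.C wP ^ 3 := by
  have hZ : PowerSeries.C wP * sθ hatX = hatZ + PowerSeries.C dP * hatX := by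
    rw [hatZ]; ring
  have hd0 : hatZ ≠ 0 := by
    intro h
    have h' := congrArg (PowerSeries.constantCoeff) h
    rw [hatZ_eq, map_add, map_mul, map_neg, PowerSeries.constantCoeff_C, map_zero] at h'
    have h0 : PowerSeries.constantCoeff (sθ tailX) = 0 := by
      rw [← PowerSeries.coeff_zero_eq_constantCoeff_apply, coeff_sEuler]
      simp [tailX]
    rw [h0, mul_zero, add_zero, neg_eq_zero] at h'
    have h1 : dP.coeff 1 = 0 := by rw [h', coeff_zero, Finsupp.zero_apply]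
    rw [dP, um, um, coeff_sub, coeff_single, coeff_single] at h1
    simp at h1
  have h2 : (2 : LPS) ≠ 0 := by
    intro h
    have h' := congrArg PowerSeries.constantCoeff h
    rw [map_ofNat, map_zero] at h'
    have h1 := congrArg at1 h'
    rw [map_ofNat, map_zero] at h1
    omega
  have hG : sθ defect = 0 := by rw [defect_eq_zero, map_zero]
  have h4 : sθ (4 : LPS) = 0 := by exact_mod_cast sEuler_natCast (AddMonoidHom.id ℤ) 4
  rw [defect] at hG
  simp only [map_sub, sEuler_mul, sEuler_sq, sEuler_pow, sθ_cs, sEuler_C, θ_wP, h4,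
    pow_succ (PowerSeries.C wP : LPS), pow_zero, one_mul, zero_mul, add_zero, zero_add,
    mul_zero] at hG
  push_cast at hG
  have hd : defect = 0 := defect_eq_zero
  rw [defect] at hd
  refine mul_left_cancel₀ (mul_ne_zero h2 hd0) ?_
  linear_combination PowerSeries.C wP * hG - 4 * PowerSeries.C dP * hd
    + (12 * PowerSeries.C wP * hatX ^ 2 + 2 * PowerSeries.C wP ^ 2 * hatX
      + 4 * cs a4s * PowerSeries.C wP ^ 3) * hZ

/-! ### The addition theorem -/

/-- `w` at the given monomial. -/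
def wAt (g : ℤ →+ ℤ × ℤ) : LPS2 := sSub g (PowerSeries.C wP)

/-- `w X` at the given monomial. -/
def xAt (g : ℤ →+ ℤ × ℤ) : LPS2 := sSub g hatX

/-- `w² Z` at the given monomial. -/
def zAt (g : ℤ →+ ℤ × ℤ) : LPS2 := sSub g hatZ

/-- `(wu wv) (Xu - Xv)`. -/
def hatD : LPS2 := xAt gU * wAt gV - xAt gV * wAt gU

/-- The cleared defect of the `x`-coordinate. -/
def addDefect : LPS2 :=
  (4 * xAt gW * wAt gU + 4 * xAt gU * wAt gW + wAt gU * wAt gW) * wAt gU * hatD ^ 2
    + 4 * wAt gV * xAt gV * xAt gU ^ 2 * wAt gW * wAt gU ^ 2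
    - 8 * xAt gU * xAt gV ^ 2 * wAt gW * wAt gU ^ 3
    - xAt gV ^ 2 * wAt gW * wAt gU ^ 4
    - 4 * cs2 a4s * wAt gV * xAt gV * wAt gW * wAt gU ^ 4
    - 4 * cs2 a6s * wAt gV ^ 2 * wAt gW * wAt gU ^ 4
    - wAt gV ^ 2 * zAt gU ^ 2 * wAt gW + 2 * wAt gU ^ 2 * zAt gU * zAt gV * wAt gW

/-- The cleared defect of the `y`-coordinate. -/
def addDefectY : LPS2 :=
  zAt gW * hatD * wAt gU ^ 2 * wAt gV + zAt gU * hatD * wAt gV * wAt gW ^ 2
    + (zAt gU * wAt gV ^ 2 - zAt gV * wAt gU ^ 2) * wAt gU * xAt gW * wAt gW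
    - (zAt gU * wAt gV ^ 2 - zAt gV * wAt gU ^ 2) * xAt gU * wAt gW ^ 2

theorem sEvOne_sSub_of_eq {g : ℤ →+ ℤ × ℤ} (h : (AddMonoidHom.fst ℤ ℤ).comp g = AddMonoidHom.id ℤ)
    (f : LPS) : sEvOne (sSub g f) = f := by
  ext1 n
  rw [sEvOne, sSub, PowerSeries.coeff_map, PowerSeries.coeff_map, evOne,
    ← RingHom.comp_apply, ← mapDomainRingHom_comp, h, mapDomainRingHom_id, RingHom.id_apply]

theorem fst_gU : (AddMonoidHom.fst ℤ ℤ).comp gU = AddMonoidHom.id ℤ := by ext; rfl
theorem fst_gW : (AddMonoidHom.fst ℤ ℤ).comp gW = AddMonoidHom.id ℤ := by ext; rfl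
theorem fst_gV : (AddMonoidHom.fst ℤ ℤ).comp gV = 0 := by ext; rfl

theorem mapDomain_zero_eq_at1 (f : LP) :
    mapDomainRingHom ℤ (0 : ℤ →+ ℤ) f = (at1 f : LP) := by
  induction f using AddMonoidAlgebra.induction_linear with
  | zero => simp
  | add x y hx hy => rw [map_add, map_add, hx, hy, Int.cast_add]
  | single n c =>
    rw [mapDomainRingHom_apply, mapDomain_single, at1_single]
    rfl

theorem coeff_sEvOne_gV (f : LPS) (n : ℕ) :
    PowerSeries.coeff n (sEvOne (sSub gV f)) = (at1 (PowerSeries.coeff n f) : LP) := by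
  rw [sEvOne, sSub, PowerSeries.coeff_map, PowerSeries.coeff_map, evOne,
    ← RingHom.comp_apply, ← mapDomainRingHom_comp, fst_gV, mapDomain_zero_eq_at1]

theorem at1_dP : at1 dP = 0 := by
  rw [dP, map_sub, um, um, at1_single, at1_single, sub_self]

theorem sEvOne_wV : sEvOne (wAt gV) = 0 := by
  ext1 n
  rw [wAt, coeff_sEvOne_gV, PowerSeries.coeff_C, map_zero]
  split_ifs <;> simp [at1_wP]

theorem sEvOne_xV : sEvOne (xAt gV) = 1 := by
  ext1 n
  rw [xAt, coeff_sEvOne_gV, hatX, map_add, PowerSeries.coeff_C_mul, map_add, map_mul, at1_wP,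
    zero_mul, add_zero]
  simp only [PowerSeries.coeff_one]
  split_ifs <;> simp

theorem sEvOne_zV : sEvOne (zAt gV) = 0 := by
  ext1 n
  rw [zAt, coeff_sEvOne_gV, hatZ_eq, ← map_pow, map_add, map_neg, PowerSeries.coeff_C_mul,
    PowerSeries.coeff_C, map_add, map_neg, map_mul, map_pow, at1_wP]
  split_ifs <;> simp [at1_dP]

theorem sEvOne_cs2 (f : PowerSeries ℤ) : sEvOne (cs2 f) = cs f := by
  ext1 n
  simp only [sEvOne, cs2, cs, PowerSeries.coeff_map, eq_intCast, map_intCast]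

theorem sEvOne_addDefect : sEvOne addDefect = 0 := by
  simp only [addDefect, hatD, map_add, map_sub, map_mul, map_pow, map_ofNat, sEvOne_wV, sEvOne_xV,
    sEvOne_zV, sEvOne_cs2]
  simp only [wAt, xAt, zAt, sEvOne_sSub_of_eq fst_gU, sEvOne_sSub_of_eq fst_gW]
  ring

theorem C_wP_ne_zero : (PowerSeries.C wP : LPS) ≠ 0 := fun h =>
  wP_ne_zero (by simpa using congrArg PowerSeries.constantCoeff h)

theorem sEvOne_factor_ne_zero : sEvOne (wAt gU * hatD) ≠ 0 := by
  simp only [hatD, map_sub, map_mul, sEvOne_wV, sEvOne_xV, mul_zero, zero_sub, one_mul]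
  simp only [wAt, sEvOne_sSub_of_eq fst_gU]
  exact mul_ne_zero C_wP_ne_zero (neg_ne_zero.2 C_wP_ne_zero)

section fieldProof

local notation "K₂" => FractionRing LPS2
local notation "ι₂" => algebraMap LPS2 (FractionRing LPS2)

theorem wAt_ne_zero {g : ℤ →+ ℤ × ℤ} (hg : Function.Injective g) : wAt g ≠ 0 := by
  intro h
  refine C_wP_ne_zero (PowerSeries.ext fun n => ?_)
  have h' := congrArg (PowerSeries.coeff n) h
  rw [wAt, sSub, PowerSeries.coeff_map, map_zero, mapDomainRingHom_apply] at h'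
  refine coeff_injective (Finsupp.mapDomain_injective hg ?_)
  simpa using congrArg AddMonoidAlgebra.coeff h'

theorem gU_injective : Function.Injective gU := fun a b h => congrArg Prod.fst h
theorem gV_injective : Function.Injective gV := fun a b h => congrArg Prod.snd h
theorem gW_injective : Function.Injective gW := fun a b h => congrArg Prod.fst h

theorem euler_neg {G : Type*} [AddCommMonoid G] (χ : G →+ ℤ) (f : AddMonoidAlgebra ℤ G) :
    euler (-χ) f = -euler χ f := by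
  refine coeff_injective (Finsupp.ext fun m => ?_)
  simp [coeff_euler]

/-- The values of an extended derivation on `X` and `Z` at a monomial. -/
theorem deriv_point {χ : ℤ × ℤ →+ ℤ} {g : ℤ →+ ℤ × ℤ} (hg : Function.Injective g) (s : ℤ)
    (hs : χ.comp g = s • AddMonoidHom.id ℤ) (E : K₂ →+ K₂)
    (hE : ∀ a b, E (a * b) = E a * b + a * E b) (hEι : ∀ a, E (ι₂ a) = ι₂ (sEuler χ a)) :
    E (ι₂ (xAt g) / ι₂ (wAt g)) = (s : K₂) * (ι₂ (zAt g) / ι₂ (wAt g) ^ 2) ∧
    E (ι₂ (zAt g) / ι₂ (wAt g) ^ 2) = (s : K₂) *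
      (6 * (ι₂ (xAt g) / ι₂ (wAt g)) ^ 2 + ι₂ (xAt g) / ι₂ (wAt g) + 2 * ι₂ (cs2 a4s)) ∧
    E (ι₂ (wAt g)) = (s : K₂) * ι₂ (sSub g (PowerSeries.C dP)) := by
  have hw : ι₂ (wAt g) ≠ 0 := (map_ne_zero_iff _ (IsFractionRing.injective _ _)).2 (wAt_ne_zero hg)
  have hsub : ∀ f : LPS, sEuler χ (sSub g f) = s • sSub g (sθ f) := by
    intro f
    ext1 n
    rw [sSub, coeff_sEuler, PowerSeries.coeff_map, euler_mapDomain, map_zsmul,
      PowerSeries.coeff_map, coeff_sEuler, hs, ← map_zsmul]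
    congr 1
    refine coeff_injective (Finsupp.ext fun m => ?_)
    rw [coeff_euler, coeff_smul, Finsupp.smul_apply, coeff_euler]
    simp [mul_assoc]
  have hval : ∀ f : LPS, E (ι₂ (sSub g f)) = (s : K₂) * ι₂ (sSub g (sθ f)) := by
    intro f
    rw [hEι, hsub, map_zsmul, zsmul_eq_mul]
  have hwd : E (ι₂ (wAt g)) = (s : K₂) * ι₂ (sSub g (PowerSeries.C dP)) := by
    rw [wAt, hval, sEuler_C, θ_wP]
  have hx : ι₂ (wAt g) * ι₂ (sSub g (sθ hatX)) =
      ι₂ (zAt g) + ι₂ (sSub g (PowerSeries.C dP)) * ι₂ (xAt g) := by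
    simp only [wAt, zAt, xAt, ← map_mul, ← map_add]
    congr 2
    rw [hatZ]; ring
  have hz : ι₂ (wAt g) * ι₂ (sSub g (sθ hatZ)) =
      2 * ι₂ (sSub g (PowerSeries.C dP)) * ι₂ (zAt g) + 6 * ι₂ (wAt g) * ι₂ (xAt g) ^ 2
        + ι₂ (wAt g) ^ 2 * ι₂ (xAt g) + 2 * ι₂ (cs2 a4s) * ι₂ (wAt g) ^ 3 := by
    rw [← sSub_cs g a4s]
    simp only [wAt, zAt, xAt]
    rw [← map_mul, ← map_mul, sθ_hatZ]
    simp only [map_add, map_mul, map_pow, map_ofNat]
  refine ⟨?_, ?_, hwd⟩
  · rw [deriv_div E hE _ hw, hwd, xAt, hval]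
    rw [xAt] at hx
    field_simp
    linear_combination (s : K₂) * hx
  · rw [deriv_div E hE _ (pow_ne_zero _ hw), pow_two, hE, hwd, zAt, hval]
    rw [zAt] at hz
    field_simp
    linear_combination (s : K₂) * hz

theorem curve_point {g : ℤ →+ ℤ × ℤ} (hg : Function.Injective g) :
    (ι₂ (zAt g) / ι₂ (wAt g) ^ 2) ^ 2 - 4 * (ι₂ (xAt g) / ι₂ (wAt g)) ^ 3
      - (ι₂ (xAt g) / ι₂ (wAt g)) ^ 2 - 4 * ι₂ (cs2 a4s) * (ι₂ (xAt g) / ι₂ (wAt g))
      - 4 * ι₂ (cs2 a6s) = 0 := by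
  have hw : ι₂ (wAt g) ≠ 0 := (map_ne_zero_iff _ (IsFractionRing.injective _ _)).2 (wAt_ne_zero hg)
  have h : ι₂ (sSub g defect) = 0 := by rw [defect_eq_zero, map_zero, map_zero]
  simp only [defect, map_sub, map_mul, map_pow, map_ofNat, sSub_cs] at h
  simp only [wAt, xAt, zAt] at hw ⊢
  field_simp
  linear_combination h

theorem chi_gU : χd.comp gU = (1 : ℤ) • AddMonoidHom.id ℤ := by ext; simp [χd, gU]
theorem chi_gV : χd.comp gV = (-1 : ℤ) • AddMonoidHom.id ℤ := by ext; simp [χd, gV]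
theorem chi_gW : χd.comp gW = (0 : ℤ) • AddMonoidHom.id ℤ := by ext; simp [χd, gW]
theorem fst_gU' : (AddMonoidHom.fst ℤ ℤ).comp gU = (1 : ℤ) • AddMonoidHom.id ℤ := by
  rw [one_smul, fst_gU]
theorem fst_gW' : (AddMonoidHom.fst ℤ ℤ).comp gW = (1 : ℤ) • AddMonoidHom.id ℤ := by
  rw [one_smul, fst_gW]
theorem fst_gV' : (AddMonoidHom.fst ℤ ℤ).comp gV = (0 : ℤ) • AddMonoidHom.id ℤ := by
  rw [zero_smul, fst_gV]

theorem deriv_ofNat {F : Type*} [Field F] (E : F →+ F)
    (hE : ∀ a b, E (a * b) = E a * b + a * E b) :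
    E 1 = 0 ∧ ∀ n : ℕ, E (n : F) = 0 := by
  have h1 : E 1 = 0 := by
    have h := hE 1 1
    simp only [mul_one, one_mul] at h
    linear_combination -h
  exact ⟨h1, fun n => by induction n with
    | zero => simp
    | succ n ih => simp [ih, h1]⟩

/-- The addition law for the `x`-coordinate. -/
theorem addDefect_eq_zero : addDefect = 0 := by
  obtain ⟨E, hE, hEι⟩ := exists_extension (sEuler χd) (sEuler_mul χd)
  obtain ⟨hXu, hZu, hwu⟩ := deriv_point gU_injective 1 chi_gU E hE hEι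
  obtain ⟨hXv, hZv, hwv⟩ := deriv_point gV_injective (-1) chi_gV E hE hEι
  obtain ⟨hXw, -, hww⟩ := deriv_point gW_injective 0 chi_gW E hE hEι
  have Fu := curve_point gU_injective
  have Fv := curve_point gV_injective
  have wu0 : ι₂ (wAt gU) ≠ 0 :=
    (map_ne_zero_iff _ (IsFractionRing.injective _ _)).2 (wAt_ne_zero gU_injective)
  have wv0 : ι₂ (wAt gV) ≠ 0 :=
    (map_ne_zero_iff _ (IsFractionRing.injective _ _)).2 (wAt_ne_zero gV_injective)
  have ww0 : ι₂ (wAt gW) ≠ 0 :=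
    (map_ne_zero_iff _ (IsFractionRing.injective _ _)).2 (wAt_ne_zero gW_injective)
  set wu := ι₂ (wAt gU) with hwu'
  set wv := ι₂ (wAt gV) with hwv'
  set ww := ι₂ (wAt gW) with hww'
  set Xu := ι₂ (xAt gU) / wu with hXu'
  set Xv := ι₂ (xAt gV) / wv with hXv'
  set X₃ := ι₂ (xAt gW) / ww with hXw'
  set Zu := ι₂ (zAt gU) / wu ^ 2 with hZu'
  set Zv := ι₂ (zAt gV) / wv ^ 2 with hZv'
  simp only [Int.cast_one, Int.cast_neg, Int.cast_zero, one_mul, neg_mul, zero_mul] at hXu hZu hwu hXv hZv hwv hXw hww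
  set f := (4 * (X₃ + Xu + Xv) + 1) * (Xu - Xv) ^ 2 - (Zu - Zv) ^ 2 with hf
  set M := wu ^ 4 * wv ^ 2 * ww with hM
  set Q := wu ^ 2 * wv * (Xu - Xv) with hQ
  have hfM : ι₂ addDefect = f * M := by
    have key : ι₂ addDefect = (f + (Zv ^ 2 - 4 * Xv ^ 3 - Xv ^ 2 - 4 * ι₂ (cs2 a4s) * Xv
        - 4 * ι₂ (cs2 a6s))) * M := by
      simp only [addDefect, hatD, map_add, map_sub, map_mul, map_pow, map_ofNat, hf, hM,
        hXu', hXv', hXw', hZu', hZv', ← hwu', ← hwv', ← hww']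
      field_simp
      ring
    rw [key, Fv, add_zero]
  have hQ' : ι₂ (wAt gU * hatD) = Q := by
    simp only [hatD, map_mul, map_sub, hQ, hXu', hXv', ← hwu', ← hwv']
    field_simp
  obtain ⟨hE1, hEn⟩ := deriv_ofNat E hE
  have hE4 : E (4 : K₂) = 0 := by exact_mod_cast hEn 4
  have hpow : ∀ x : K₂, E (x ^ 2) = 2 * x * E x := fun x => by rw [pow_two, hE]; ring
  have hpow4 : E (wu ^ 4) = 4 * wu ^ 3 * E wu := by
    rw [show wu ^ 4 = (wu ^ 2) ^ 2 by ring, hpow, hpow]; ring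
  have hfd : (Xu - Xv) * E f = 2 * (Zu + Zv) * f := by
    have hEf : E f = 4 * (Zu - Zv) * (Xu - Xv) ^ 2
        + (4 * (X₃ + Xu + Xv) + 1) * (2 * (Xu - Xv) * (Zu + Zv))
        - 2 * (Zu - Zv) * ((6 * Xu ^ 2 + Xu + 2 * ι₂ (cs2 a4s))
          + (6 * Xv ^ 2 + Xv + 2 * ι₂ (cs2 a4s))) := by
      simp only [hf, map_sub, map_add, hE, hpow, hE1, hE4, hXu, hXv, hXw, hZu, hZv]
      ring
    rw [hEf, hf]
    linear_combination 2 * (Zu - Zv) * (Fu - Fv)
  have hEM : E M = (4 * wu ^ 3 * E wu * wv ^ 2 + wu ^ 4 * (2 * wv * E wv)) * ww := by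
    simp only [hM, hE, hpow, hpow4, hww]
    ring
  have hEQ : E Q = (2 * wu * wv * E wu + wu ^ 2 * E wv) * (Xu - Xv)
      + wu ^ 2 * wv * (Zu + Zv) := by
    simp only [hQ, hE, hpow, map_sub, hXu, hXv]
    ring
  refine eq_zero_of_linear_relation sEvOne_factor_ne_zero sEvOne_addDefect
    (b := 2 * sEuler χd (wAt gU * hatD)) (IsFractionRing.injective LPS2 K₂ ?_)
  simp only [map_mul, map_ofNat, ← hEι]
  rw [← map_mul ι₂ (wAt gU) hatD, hfM, hQ', hE, hEM, hEQ, hQ]
  rw [hM]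
  linear_combination (wu ^ 6 * wv ^ 3 * ww) * hfd

/-- The addition law for the `y`-coordinate. -/
theorem addDefectY_eq_zero : addDefectY = 0 := by
  obtain ⟨E, hE, hEι⟩ := exists_extension (sEuler (AddMonoidHom.fst ℤ ℤ)) (sEuler_mul _)
  obtain ⟨hXu, hZu, -⟩ := deriv_point gU_injective 1 fst_gU' E hE hEι
  obtain ⟨hXv, hZv, -⟩ := deriv_point gV_injective 0 fst_gV' E hE hEι
  obtain ⟨hXw, -, -⟩ := deriv_point gW_injective 1 fst_gW' E hE hEι
  have Fu := curve_point gU_injective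
  have Fv := curve_point gV_injective
  have wu0 : ι₂ (wAt gU) ≠ 0 :=
    (map_ne_zero_iff _ (IsFractionRing.injective _ _)).2 (wAt_ne_zero gU_injective)
  have wv0 : ι₂ (wAt gV) ≠ 0 :=
    (map_ne_zero_iff _ (IsFractionRing.injective _ _)).2 (wAt_ne_zero gV_injective)
  have ww0 : ι₂ (wAt gW) ≠ 0 :=
    (map_ne_zero_iff _ (IsFractionRing.injective _ _)).2 (wAt_ne_zero gW_injective)
  have hD0 : hatD ≠ 0 := fun h => sEvOne_factor_ne_zero (by rw [h, mul_zero, map_zero])
  set wu := ι₂ (wAt gU) with hwu'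
  set wv := ι₂ (wAt gV) with hwv'
  set ww := ι₂ (wAt gW) with hww'
  set Xu := ι₂ (xAt gU) / wu with hXu'
  set Xv := ι₂ (xAt gV) / wv with hXv'
  set X₃ := ι₂ (xAt gW) / ww with hXw'
  set Zu := ι₂ (zAt gU) / wu ^ 2 with hZu'
  set Zv := ι₂ (zAt gV) / wv ^ 2 with hZv'
  set Z₃ := ι₂ (zAt gW) / ww ^ 2 with hZw'
  simp only [Int.cast_one, Int.cast_zero, one_mul, zero_mul] at hXu hZu hXv hZv hXw
  have hD : Xu - Xv ≠ 0 := by
    have h : ι₂ hatD = wu * wv * (Xu - Xv) := by
      simp only [hatD, map_sub, map_mul, hXu', hXv', ← hwu', ← hwv']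
      field_simp
    intro h'
    rw [h', mul_zero] at h
    exact hD0 (IsFractionRing.injective LPS2 K₂ (by rw [h, map_zero]))
  set f := (4 * (X₃ + Xu + Xv) + 1) * (Xu - Xv) ^ 2 - (Zu - Zv) ^ 2 with hf
  have hf0 : f = 0 := by
    have key : ι₂ addDefect = (f + (Zv ^ 2 - 4 * Xv ^ 3 - Xv ^ 2 - 4 * ι₂ (cs2 a4s) * Xv
        - 4 * ι₂ (cs2 a6s))) * (wu ^ 4 * wv ^ 2 * ww) := by
      simp only [addDefect, hatD, map_add, map_sub, map_mul, map_pow, map_ofNat, hf,
        hXu', hXv', hXw', hZu', hZv', ← hwu', ← hwv', ← hww']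
      field_simp
      ring
    rw [addDefect_eq_zero, map_zero, Fv, add_zero, eq_comm, mul_eq_zero] at key
    exact key.resolve_right
      (mul_ne_zero (mul_ne_zero (pow_ne_zero _ wu0) (pow_ne_zero _ wv0)) ww0)
  obtain ⟨hE1, hEn⟩ := deriv_ofNat E hE
  have hE4 : E (4 : K₂) = 0 := by exact_mod_cast hEn 4
  have hpow : ∀ x : K₂, E (x ^ 2) = 2 * x * E x := fun x => by rw [pow_two, hE]; ring
  have hEf : E f = 4 * (Z₃ + Zu) * (Xu - Xv) ^ 2
      + (4 * (X₃ + Xu + Xv) + 1) * (2 * (Xu - Xv) * Zu)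
      - 2 * (Zu - Zv) * (6 * Xu ^ 2 + Xu + 2 * ι₂ (cs2 a4s)) := by
    simp only [hf, map_sub, map_add, hE, hpow, hE1, hE4, hXu, hXv, hXw, hZu, hZv]
    ring
  rw [hf0, map_zero] at hEf
  have hg : (Z₃ + Zu) * (Xu - Xv) + (Zu - Zv) * (X₃ - Xu) = 0 := by
    have h4 : (4 : K₂) ≠ 0 := by
      rw [← map_ofNat (algebraMap LPS2 K₂) 4,
        map_ne_zero_iff _ (IsFractionRing.injective _ _)]
      intro h
      have h' := congrArg (fun x : LPS2 => (PowerSeries.constantCoeff x).coeff 0) h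
      simp [show (4 : LP2) = single 0 4 from rfl, map_ofNat] at h'
    refine mul_left_cancel₀ (mul_ne_zero h4 (pow_ne_zero 2 hD)) ?_
    rw [mul_zero]
    rw [hf] at hf0
    linear_combination -(Xu - Xv) * hEf - (Zu + Zv) * hf0 - (Zu - Zv) * (Fu - Fv)
  refine IsFractionRing.injective LPS2 K₂ ?_
  rw [map_zero]
  calc ι₂ addDefectY
      = ((Z₃ + Zu) * (Xu - Xv) + (Zu - Zv) * (X₃ - Xu)) * (wu ^ 3 * wv ^ 2 * ww ^ 2) := by
        simp only [addDefectY, hatD, map_add, map_sub, map_mul, map_pow,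
          hXu', hXv', hXw', hZu', hZv', hZw', ← hwu', ← hwv', ← hww']
        field_simp
        ring
    _ = 0 := by rw [hg, zero_mul]

end fieldProof

end Fermat.Agent.Tate
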